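import Fermat.Agent.RecurrencePowers.Roots
import Fermat.Agent.BakerExplicit.SIntegralSuperelliptic

/-!
# Finitely many perfect powers in a binary recurrence with real roots

For a fixed exponent `q` write `n = 2 q t + r`: then `x = v / Q ^ (q t)` and `y / Q ^ t` are
`S`-integral on `x² - c (-Q) ^ r = D b² Y ^ (2 q)`, `S` the primes of `Q`, so `u n ² = O (|Q| ^ n)`,
which holds for finitely many `n` only.
-/

set_option autoImplicit false

noncomputable section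

namespace FA.RecurrencePowers

open Polynomial BakerExplicit.EffectiveSUnits BakerExplicit.SIntegralSuperelliptic

variable {P Q : ℤ} {u : ℕ → ℤ}

/-- For one exponent the powers are of the size of `|Q| ^ (n / 2)` at most. -/
theorem sq_le_mul_pow (hD : 0 < P ^ 2 + 4 * Q) (hQ : Q ≠ 0) (hc : initialInvariant P Q u ≠ 0)
    (hrec : ∀ n, u (n + 2) = P * u (n + 1) + Q * u n) {b : ℤ} (hb : b ≠ 0) {q : ℕ} (hq : 2 ≤ q) :
    ∃ W : ℕ, ∀ (n : ℕ) (y : ℤ), u n = b * y ^ q → (u n).natAbs ^ 2 ≤ W * Q.natAbs ^ n := by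
  set D := P ^ 2 + 4 * Q with hDdef
  set c₀ := initialInvariant P Q u with hc₀
  set g := Q.natAbs + (D * b ^ 2).natAbs with hg
  set k := c₀.natAbs * Q.natAbs ^ (2 * q) + 1 with hkdef
  set E := abscissaBound 2 k (2 * q) g
  have hDb : D * b ^ 2 ≠ 0 := mul_ne_zero hD.ne' (pow_ne_zero 2 hb)
  have hQ1 : 1 ≤ Q.natAbs := Int.natAbs_pos.2 hQ
  refine ⟨2 ^ (2 * E) + c₀.natAbs, fun n y hy => ?_⟩
  obtain ⟨t, r, hr, rfl⟩ : ∃ t r, r < 2 * q ∧ n = 2 * q * t + r :=
    ⟨n / (2 * q), n % (2 * q), Nat.mod_lt _ (by omega), (Nat.div_add_mod n (2 * q)).symm⟩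
  have hinv := invariant_eq hrec (2 * q * t + r)
  set v := 2 * u (2 * q * t + r + 1) - P * u (2 * q * t + r)
  set c := c₀ * (-Q) ^ r with hcdef
  have hc' : c ≠ 0 := mul_ne_zero hc (pow_ne_zero _ (neg_ne_zero.2 hQ))
  have hck : c.natAbs + 1 ≤ k := by
    rw [hkdef, hcdef, Int.natAbs_mul, Int.natAbs_pow, Int.natAbs_neg]
    exact Nat.add_le_add_right (Nat.mul_le_mul_left _ (Nat.pow_le_pow_right hQ1 hr.le)) 1
  obtain ⟨w, hw⟩ := IsAlgClosed.exists_pow_nat_eq (c : ℂ) (n := 2) two_pos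
  have hw0 : w ≠ 0 := fun h => hc' (Int.cast_eq_zero.1 (hw.symm.trans (by simp [h])))
  set f : ℤ[X] := X ^ 2 - C c with hf
  have hne : w ≠ -w := fun h => hw0 (by linear_combination h / 2)
  have hinj : Function.Injective ![w, -w] := fun i j h => by
    fin_cases i <;> fin_cases j <;> simp_all
  have hw' : (-w) ^ 2 = (c : ℂ) := by rw [neg_sq, hw]
  have hroot : ∀ i, aeval (![w, -w] i) f = 0 := fun i => by
    fin_cases i <;> simp [hf, hw]
  have hroot' : ∀ i, aeval (![w, -w] i) f.derivative ≠ 0 := fun i => by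
    fin_cases i <;> simp [hf, hw0, map_ofNat]
  have hk : ∀ i, (f.coeff i).natAbs ≤ 2 ^ k := fun i => by
    refine le_trans ?_ Nat.lt_two_pow_self.le
    rw [hf, coeff_sub, coeff_X_pow, coeff_C]
    refine (Int.natAbs_sub_le _ _).trans ?_
    split_ifs <;> omega
  have hbs : Smooth g (D * b ^ 2).natAbs := fun p _ hp =>
    (Nat.le_of_dvd (Int.natAbs_pos.2 hDb) hp).trans
      ((Nat.le_add_left _ _).trans Nat.lt_two_pow_self.le)
  set x : ℚ := (v : ℚ) / ((Q ^ (q * t) : ℤ) : ℚ) with hx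
  have hden : ∀ p : ℕ, p.Prime → p ∣ x.den → p ≤ 2 ^ g := fun p hp hpd => by
    have h1 : (x.den : ℤ) ∣ Q ^ (q * t) := by
      rw [hx, ← Rat.divInt_eq_div]
      exact Rat.den_dvd _ _
    have h2 : p ∣ Q.natAbs ^ (q * t) := by
      have := hpd.trans (Int.natAbs_dvd_natAbs.2 h1)
      rwa [Int.natAbs_pow] at this
    exact (Nat.le_of_dvd hQ1 (hp.dvd_of_dvd_pow h2)).trans
      ((Nat.le_add_right _ _).trans Nat.lt_two_pow_self.le)
  have hQQ : (Q : ℚ) ≠ 0 := Int.cast_ne_zero.2 hQ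
  have heq : ((D * b ^ 2 : ℤ) : ℚ) * ((y : ℚ) / (Q : ℚ) ^ t) ^ (2 * q) = aeval x f := by
    have e : (v : ℚ) ^ 2 - (D : ℚ) * ((b : ℚ) * (y : ℚ) ^ q) ^ 2 =
        (c₀ : ℚ) * (-(Q : ℚ)) ^ (2 * q * t + r) := by
      rw [hy, ← hc₀, ← hDdef] at hinv
      exact_mod_cast hinv
    rw [pow_add, (Even.mul_right (even_two_mul q) t).neg_pow] at e
    rw [hf, map_sub, map_pow, aeval_X, aeval_C, algebraMap_int_eq, eq_intCast, hcdef, hx]
    push_cast
    simp only [div_pow, ← pow_mul]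
    rw [mul_comm t (2 * q), mul_right_comm q t 2, mul_comm q 2]
    field_simp
    linear_combination -e
  have hxle : x.num.natAbs ≤ 2 ^ E :=
    (power_bound_smooth (natDegree_X_pow_sub_C.le) hk (by omega) hinj hroot hroot' hDb hbs hden
      heq).1
  have hv : v.natAbs ≤ 2 ^ E * Q.natAbs ^ (q * t) := by
    have h1 : x * ((Q ^ (q * t) : ℤ) : ℚ) = v := by
      rw [hx, div_mul_cancel₀ _ (Int.cast_ne_zero.2 (pow_ne_zero _ hQ))]
    have h2 : (v : ℚ) * x.den = x.num * ((Q ^ (q * t) : ℤ) : ℚ) := by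
      rw [← h1, mul_right_comm, Rat.mul_den_eq_num]
    have h3 : v * x.den = x.num * Q ^ (q * t) := by exact_mod_cast h2
    have h4 := congrArg Int.natAbs h3
    rw [Int.natAbs_mul, Int.natAbs_mul, Int.natAbs_natCast, Int.natAbs_pow] at h4
    exact (Nat.le_mul_of_pos_right _ x.den_pos).trans (h4.le.trans (Nat.mul_le_mul_right _ hxle))
  -- `D u² = v² - c₀ (-Q) ^ n`
  have h1 : D * u (2 * q * t + r) ^ 2 = v ^ 2 - c₀ * (-Q) ^ (2 * q * t + r) := by linarith
  have h2 := (congrArg Int.natAbs h1).le.trans (Int.natAbs_sub_le _ _)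
  simp only [Int.natAbs_mul, Int.natAbs_pow, Int.natAbs_neg] at h2
  refine (Nat.le_mul_of_pos_left _ (Int.natAbs_pos.2 hD.ne')).trans (h2.trans ?_)
  rw [add_mul]
  refine Nat.add_le_add_right ?_ _
  calc v.natAbs ^ 2 ≤ (2 ^ E * Q.natAbs ^ (q * t)) ^ 2 := Nat.pow_le_pow_left hv 2
    _ = 2 ^ (2 * E) * Q.natAbs ^ (2 * q * t) := by ring
    _ ≤ _ := Nat.mul_le_mul_left _ (Nat.pow_le_pow_right hQ1 (Nat.le_add_right _ _))

/-- **Perfect powers in a binary recurrence with real roots**: finitely many indices. -/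
theorem powers_finite (hD : 0 < P ^ 2 + 4 * Q) (hP : P ≠ 0) (hQ : Q ≠ 0)
    (hc : initialInvariant P Q u ≠ 0)
    (hrec : ∀ n, u (n + 2) = P * u (n + 1) + Q * u n) {b : ℤ} (hb : b ≠ 0) :
    {n : ℕ | ∃ (y : ℤ) (q : ℕ), 2 ≤ q ∧ u n = b * y ^ q}.Finite := by
  classical
  obtain ⟨M, hM⟩ := exponent_bounded hD hP hQ hc hrec hb
  have hW : ∀ q : ℕ, ∃ W : ℕ, 2 ≤ q →
      ∀ (n : ℕ) (y : ℤ), u n = b * y ^ q → (u n).natAbs ^ 2 ≤ W * Q.natAbs ^ n := fun q => by
    by_cases hq : 2 ≤ q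
    · obtain ⟨W, hW⟩ := sq_le_mul_pow hD hQ hc hrec hb hq
      exact ⟨W, fun _ => hW⟩
    · exact ⟨0, fun h => absurd h hq⟩
  choose W hW using hW
  set T := b.natAbs ^ 2 + ∑ q ∈ Finset.range (M + 1), W q
  obtain ⟨N, hN⟩ := Filter.eventually_atTop.1
    ((tendsto_sq_div hD hP hQ hc hrec).eventually_gt_atTop (T : ℝ))
  refine (Set.finite_Iio N).subset ?_
  rintro n ⟨y, q, hq, hy⟩
  by_contra hn
  have hle : (u n).natAbs ^ 2 ≤ T * Q.natAbs ^ n := by
    rcases lt_or_ge y.natAbs 2 with hy2 | hy2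
    · have h1 : (u n).natAbs ≤ b.natAbs := by
        rw [hy, Int.natAbs_mul, Int.natAbs_pow]
        exact (Nat.mul_le_mul_left _ (pow_le_one₀ (Nat.zero_le _) (by omega))).trans
          (mul_one _).le
      exact ((Nat.pow_le_pow_left h1 2).trans (Nat.le_add_right _ _)).trans
        (Nat.le_mul_of_pos_right _ (Nat.pow_pos (Int.natAbs_pos.2 hQ)))
    · refine (hW q hq n y hy).trans (Nat.mul_le_mul_right _ ?_)
      exact le_add_left (Finset.single_le_sum (fun _ _ => Nat.zero_le _)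
        (Finset.mem_range.2 (Nat.lt_succ_of_le
          (hM n q y (by rw [Int.abs_eq_natAbs]; omega) hy.symm))))
  have h2 := hN n (not_lt.1 hn)
  rw [lt_div_iff₀ (pow_pos (abs_pos.2 (Int.cast_ne_zero.2 hQ)) n), ← sq_abs, ← Int.cast_abs,
    ← Int.cast_abs, Int.abs_eq_natAbs, Int.abs_eq_natAbs, Int.cast_natCast,
    Int.cast_natCast] at h2
  exact absurd (show ((u n).natAbs : ℝ) ^ 2 ≤ (T : ℝ) * (Q.natAbs : ℝ) ^ n by exact_mod_cast hle)
    (not_le.2 h2)

/-- **`a A ^ n + c B ^ n = b y ^ q`**: finitely many `n`. -/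
theorem exponential_sum_finite {a c A B : ℤ} (ha : a ≠ 0) (hc : c ≠ 0) (hA : A ≠ 0) (hB : B ≠ 0)
    (hne : |A| ≠ |B|) {b : ℤ} (hb : b ≠ 0) :
    {n : ℕ | ∃ (y : ℤ) (q : ℕ), 2 ≤ q ∧ a * A ^ n + c * B ^ n = b * y ^ q}.Finite := by
  have hAB : A - B ≠ 0 := fun h => hne (by rw [sub_eq_zero.1 h])
  refine powers_finite (P := A + B) (Q := -(A * B)) (u := fun n => a * A ^ n + c * B ^ n)
    ?_ (fun h => hne (by rw [eq_neg_of_add_eq_zero_left h, abs_neg]))
    (neg_ne_zero.2 (mul_ne_zero hA hB)) ?_ (fun n => by ring) hb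
  · have := pow_two_pos_of_ne_zero hAB
    linarith [show (A + B) ^ 2 + 4 * -(A * B) = (A - B) ^ 2 by ring]
  · rw [show initialInvariant (A + B) (-(A * B)) (fun n => a * A ^ n + c * B ^ n) =
      -4 * a * c * (A - B) ^ 2 by simp only [initialInvariant]; ring]
    exact mul_ne_zero (mul_ne_zero (mul_ne_zero (by norm_num) ha) hc) (pow_ne_zero 2 hAB)

/-- **Repdigits that are perfect powers**: finitely many lengths in every base. -/
theorem repdigit_finite {x d : ℕ} (hx : 2 ≤ x) (hd : d ≠ 0) :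
    {n : ℕ | ∃ y q : ℕ, 2 ≤ q ∧ d * ∑ i ∈ Finset.range n, x ^ i = y ^ q}.Finite := by
  set u : ℕ → ℤ := fun n => (d : ℤ) * ∑ i ∈ Finset.range n, (x : ℤ) ^ i with hu
  have hfin := powers_finite (P := (x : ℤ) + 1) (Q := -(x : ℤ)) (u := u) ?_ (by omega) (by omega)
    ?_ (fun n => ?_) (one_ne_zero (α := ℤ))
  · refine hfin.subset ?_
    rintro n ⟨y, q, hq, h⟩
    exact ⟨y, q, hq, by simp only [one_mul, hu]; exact_mod_cast h⟩
  · have : (2 : ℤ) ≤ x := by exact_mod_cast hx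
    nlinarith
  · simp [initialInvariant, hu, hd]
  · simp only [hu, Finset.sum_range_succ, pow_succ]
    ring

end FA.RecurrencePowers

end
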