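import Fermat.Agent.RecurrencePowerBound.Binary

/-!
# The roots of a binary recurrence with real roots

`u (n + 2) = P u (n + 1) + Q u n` with `P`, `Q` and `P² + 4 Q > 0`, square or not: one root
dominates, and with `(2 u 1 - P u 0)² - (P² + 4 Q) u 0²` non-zero both coefficients are non-zero.
-/

set_option autoImplicit false

noncomputable section

namespace FA.RecurrencePowers

variable {P Q : ℤ} {u : ℕ → ℤ}

/-- The invariant of the recurrence. -/
def initialInvariant (P Q : ℤ) (u : ℕ → ℤ) : ℤ :=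
  (2 * u 1 - P * u 0) ^ 2 - (P ^ 2 + 4 * Q) * u 0 ^ 2

/-- `v² - D u² = c (-Q) ^ n`. -/
theorem invariant_eq (hrec : ∀ n, u (n + 2) = P * u (n + 1) + Q * u n) (n : ℕ) :
    (2 * u (n + 1) - P * u n) ^ 2 - (P ^ 2 + 4 * Q) * u n ^ 2 =
      initialInvariant P Q u * (-Q) ^ n := by
  induction n with
  | zero => simp [initialInvariant]
  | succ n ih =>
    rw [hrec n, pow_succ]
    linear_combination (-Q) * ih

/-- The root of larger absolute value. -/
def majorRoot (P Q : ℤ) : ℝ := ((P : ℝ) + (P.sign : ℝ) * √((P : ℝ) ^ 2 + 4 * Q)) / 2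

/-- The root of smaller absolute value. -/
def minorRoot (P Q : ℤ) : ℝ := ((P : ℝ) - (P.sign : ℝ) * √((P : ℝ) ^ 2 + 4 * Q)) / 2

variable (hD : 0 < P ^ 2 + 4 * Q) (hP : P ≠ 0) (hQ : Q ≠ 0)
include hD hP hQ

/-- The facts about the two roots. -/
theorem root_facts :
    majorRoot P Q + minorRoot P Q = P ∧ majorRoot P Q * minorRoot P Q = -(Q : ℝ) ∧
      |minorRoot P Q| < |majorRoot P Q| ∧ 1 < |majorRoot P Q| ∧
      |(Q : ℝ)| < majorRoot P Q ^ 2 := by
  have hD' : (0 : ℝ) < (P : ℝ) ^ 2 + 4 * Q := by exact_mod_cast hD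
  have ht := Real.mul_self_sqrt hD'.le
  have ht0 := Real.sqrt_pos.2 hD'
  set t := √((P : ℝ) ^ 2 + 4 * Q) with htdef
  have hs : P.sign = 1 ∨ P.sign = -1 := by
    rcases lt_or_gt_of_ne hP with h | h
    · exact Or.inr (Int.sign_eq_neg_one_of_neg h)
    · exact Or.inl (Int.sign_eq_one_of_pos h)
  have hs2 : (P.sign : ℝ) * P.sign = 1 := by rcases hs with h | h <;> simp [h]
  have hsum : majorRoot P Q + minorRoot P Q = P := by simp only [majorRoot, minorRoot]; ring
  have hprod : majorRoot P Q * minorRoot P Q = -(Q : ℝ) := by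
    simp only [majorRoot, minorRoot, ← htdef]
    linear_combination (-(P.sign : ℝ) * P.sign / 4) * ht -
      ((P : ℝ) ^ 2 / 4 + (Q : ℝ)) * hs2
  have hlt : |minorRoot P Q| < |majorRoot P Q| := by
    simp only [majorRoot, minorRoot, ← htdef]
    rcases lt_or_gt_of_ne hP with h | h
    · have hPR : (P : ℝ) < 0 := Int.cast_lt_zero.2 h
      rw [Int.sign_eq_neg_one_of_neg h, Int.cast_neg, Int.cast_one,
        abs_of_neg (show ((P : ℝ) + -1 * t) / 2 < 0 by linarith), abs_lt]
      constructor <;> linarith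
    · have hPR : (0 : ℝ) < P := Int.cast_pos.2 h
      rw [Int.sign_eq_one_of_pos h, Int.cast_one,
        abs_of_pos (show (0 : ℝ) < ((P : ℝ) + 1 * t) / 2 by linarith), abs_lt]
      constructor <;> linarith
  have hQ1 : (1 : ℝ) ≤ |(Q : ℝ)| := by exact_mod_cast Int.one_le_abs hQ
  have habs : |majorRoot P Q| * |minorRoot P Q| = |(Q : ℝ)| := by
    rw [← abs_mul, hprod, abs_neg]
  have h0 : 0 < |majorRoot P Q| := (abs_nonneg _).trans_lt hlt
  have hsq : |(Q : ℝ)| < majorRoot P Q ^ 2 := by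
    rw [← habs, ← sq_abs, sq]
    exact mul_lt_mul_of_pos_left hlt h0
  refine ⟨hsum, hprod, hlt, ?_, hsq⟩
  by_contra! h1
  have h2 : majorRoot P Q ^ 2 ≤ 1 := by
    rw [← sq_abs]
    exact pow_le_one₀ (abs_nonneg _) h1
  linarith

omit hQ in
/-- Neither coefficient vanishes. -/
theorem coefficients_ne_zero (hc : initialInvariant P Q u ≠ 0) :
    (u 1 : ℝ) - minorRoot P Q * u 0 ≠ 0 ∧ (u 1 : ℝ) - majorRoot P Q * u 0 ≠ 0 := by
  have hD' : (0 : ℝ) < (P : ℝ) ^ 2 + 4 * Q := by exact_mod_cast hD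
  have ht := Real.mul_self_sqrt hD'.le
  have hs2 : (P.sign : ℝ) * P.sign = 1 := by
    rcases lt_or_gt_of_ne hP with h | h
    · simp [Int.sign_eq_neg_one_of_neg h]
    · simp [Int.sign_eq_one_of_pos h]
  have h : 4 * (((u 1 : ℝ) - minorRoot P Q * u 0) * ((u 1 : ℝ) - majorRoot P Q * u 0)) =
      (initialInvariant P Q u : ℝ) := by
    simp only [majorRoot, minorRoot, initialInvariant]
    push_cast
    linear_combination (-(u 0 : ℝ) ^ 2 * (P.sign : ℝ) * P.sign) * ht -
      (u 0 : ℝ) ^ 2 * ((P : ℝ) ^ 2 + 4 * Q) * hs2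
  constructor <;> intro e <;>
    · rw [e] at h
      exact hc (Int.cast_eq_zero.1 (by rw [← h]; ring))

/-- **The exponents of the perfect powers are bounded.** -/
theorem exponent_bounded (hc : initialInvariant P Q u ≠ 0)
    (hrec : ∀ n, u (n + 2) = P * u (n + 1) + Q * u n) {b : ℤ} (hb : b ≠ 0) :
    ∃ M : ℕ, ∀ (n q : ℕ) (y : ℤ), 2 ≤ |y| → b * y ^ q = u n → q ≤ M := by
  obtain ⟨hsum, hprod, hlt, hone, -⟩ := root_facts hD hP hQ
  obtain ⟨hA, hB⟩ := coefficients_ne_zero hD hP hc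
  have hD' : (0 : ℝ) < (P : ℝ) ^ 2 + 4 * Q := by exact_mod_cast hD
  have htint : IsIntegral ℚ (majorRoot P Q : ℂ) := by
    refine ⟨Polynomial.X ^ 2 - Polynomial.C (P : ℚ) * Polynomial.X - Polynomial.C (Q : ℚ),
      by monicity!, ?_⟩
    have e : majorRoot P Q ^ 2 - (P : ℝ) * majorRoot P Q - Q = 0 := by
      linear_combination majorRoot P Q * hsum - hprod
    have e' := congrArg (fun r : ℝ => (r : ℂ)) e
    push_cast at e'
    rw [← Polynomial.aeval_def]
    simpa using e'
  set K := IntermediateField.adjoin ℚ ({(majorRoot P Q : ℂ)} : Set ℂ)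
  have : FiniteDimensional ℚ K := IntermediateField.adjoin.finiteDimensional htint
  have : NumberField K := ⟨⟩
  set α : K := ⟨(majorRoot P Q : ℂ), IntermediateField.mem_adjoin_simple_self ℚ _⟩ with hα
  set β : K := (P : K) - α with hβ
  set ψ := algebraMap K ℂ
  have hψα : ψ α = (majorRoot P Q : ℂ) := rfl
  have hψβ : ψ β = (minorRoot P Q : ℂ) := by
    rw [hβ, map_sub, map_intCast, hψα, show minorRoot P Q = (P : ℝ) - majorRoot P Q by linarith]
    push_cast; rfl
  have hs : α + β = (P : K) := by rw [hβ]; ring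
  have hp : α * β = -(Q : K) := ψ.injective (by
    rw [map_mul, hψα, hψβ, map_neg, map_intCast, ← Complex.ofReal_mul, hprod]
    push_cast; rfl)
  have hne : α ≠ β := fun h => by
    have h1 := congrArg ψ h
    rw [hψα, hψβ, Complex.ofReal_inj] at h1
    exact hlt.ne (by rw [h1])
  have hβ0 : β ≠ 0 := fun h => by
    rw [h, mul_zero, eq_comm, neg_eq_zero, Int.cast_eq_zero] at hp
    exact hQ hp
  have hcoef : ∀ (z : K) (r : ℝ), ψ z = r → (u 1 : ℝ) - r * u 0 ≠ 0 →
      ((u 1 : K) - z * (u 0 : K)) / (α - β) ≠ 0 := fun z r hz hr =>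
    div_ne_zero (fun h => hr (by
      have h1 := congrArg ψ h
      rw [map_sub, map_mul, map_intCast, map_intCast, hz, map_zero] at h1
      exact Complex.ofReal_eq_zero.1 (Eq.trans (by push_cast; ring) h1)))
      (sub_ne_zero.2 hne)
  obtain ⟨M, hM⟩ := RecurrencePowerBound.dominant_exponent_bounded ψ
    (hcoef β _ hψβ hA) (α := α)
    (by rw [hψα, Complex.norm_real, Real.norm_eq_abs]; exact hone)
    (C := ‖ψ (((u 1 : K) - α * (u 0 : K)) / (α - β))‖) (ρ := ‖ψ β‖)
    (by simp only [hψα, hψβ, Complex.norm_real, Real.norm_eq_abs]; exact hlt)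
    (norm_nonneg _)
    (fun n => by
      have h1 := congrArg ψ (RecurrencePowerBound.closed_formula hs hp hne hrec n)
      rw [map_intCast, map_sub, map_mul, map_mul, map_pow, map_pow] at h1
      rw [h1, sub_sub_cancel_left, norm_neg, norm_mul, norm_pow]) hb
  refine ⟨M, fun n q y hy heq => hM n q y hy heq fun h => ?_⟩
  rw [RecurrencePowerBound.closed_formula hs hp hne hrec n, sub_eq_self] at h
  exact mul_ne_zero (hcoef α _ hψα hB) (pow_ne_zero n hβ0) h

/-- `u n / α ^ n` tends to the leading coefficient, so `u n² / |Q| ^ n` tends to infinity. -/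
theorem tendsto_sq_div (hc : initialInvariant P Q u ≠ 0)
    (hrec : ∀ n, u (n + 2) = P * u (n + 1) + Q * u n) :
    Filter.Tendsto (fun n => (u n : ℝ) ^ 2 / |(Q : ℝ)| ^ n) Filter.atTop Filter.atTop := by
  obtain ⟨hsum, hprod, hlt, hone, hsq⟩ := root_facts hD hP hQ
  obtain ⟨hA, -⟩ := coefficients_ne_zero hD hP hc
  set α := majorRoot P Q
  set β := minorRoot P Q
  have hne : α ≠ β := fun h => hlt.ne (by rw [h])
  have hα0 : α ≠ 0 := fun h => by rw [h, abs_zero] at hone; linarith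
  set A : ℝ := ((u 1 : ℝ) - β * u 0) / (α - β) with hAdef
  set B : ℝ := ((u 1 : ℝ) - α * u 0) / (α - β) with hBdef
  have hA2 : 0 < A ^ 2 := by
    have : A ≠ 0 := div_ne_zero hA (sub_ne_zero.2 hne)
    positivity
  have hQ0 : 0 < |(Q : ℝ)| := abs_pos.2 (Int.cast_ne_zero.2 hQ)
  have h1 : Filter.Tendsto (fun n => (A - B * (β / α) ^ n) ^ 2) Filter.atTop (nhds (A ^ 2)) := by
    have h : |β / α| < 1 := by
      rw [abs_div, div_lt_one (by linarith)]
      exact hlt
    simpa using ((tendsto_const_nhds (x := A)).sub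
      ((tendsto_pow_atTop_nhds_zero_of_abs_lt_one h).const_mul B)).pow 2
  have h2 : Filter.Tendsto (fun n => (α ^ 2 / |(Q : ℝ)|) ^ n) Filter.atTop Filter.atTop :=
    tendsto_pow_atTop_atTop_of_one_lt ((one_lt_div hQ0).2 hsq)
  refine (h1.pos_mul_atTop hA2 h2).congr fun n => ?_
  rw [RecurrencePowerBound.closed_formula hsum hprod hne hrec n, ← hAdef, ← hBdef, div_pow,
    div_pow, mul_div_assoc']
  congr 1
  rw [← pow_mul, mul_comm 2 n, pow_mul, ← mul_pow]
  congr 1
  field_simp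

end FA.RecurrencePowers

end
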